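/-
P-PET / PET-M1a (helper33): the standard fundamental domain of `SL(2, ℤ)` has finite hyperbolic
volume.  Mathlib only.
-/
import Fermat.Agent.H98.Pet.Interfaces

set_option autoImplicit false

open MeasureTheory UpperHalfPlane Set

open scoped MatrixGroups

namespace Fermat.Agent.H33.Pet

/-- The dominating function on `ℝ × ℝ`. -/
noncomputable def domFun (p : ℝ × ℝ) : ℝ :=
  (Icc (-(1 / 2 : ℝ)) (1 / 2)).indicator (fun _ => (1 : ℝ)) p.1 *
    (Ioi (1 / 4 : ℝ)).indicator (fun t : ℝ => t ^ (-2 : ℝ)) p.2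

lemma integrable_domFun : Integrable domFun (volume : Measure (ℝ × ℝ)) := by
  have h1 : Integrable ((Icc (-(1 / 2 : ℝ)) (1 / 2)).indicator (fun _ => (1 : ℝ)))
      (volume : Measure ℝ) := by
    rw [integrable_indicator_iff measurableSet_Icc]
    exact integrableOn_const (by simp)
  have h2 : Integrable ((Ioi (1 / 4 : ℝ)).indicator (fun t : ℝ => t ^ (-2 : ℝ)))
      (volume : Measure ℝ) := by
    rw [integrable_indicator_iff measurableSet_Ioi]
    exact integrableOn_Ioi_rpow_of_lt (by norm_num) (by norm_num)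
  exact h1.mul_prod h2

lemma integrable_domFun_comp :
    Integrable (fun z : ℂ => domFun (Complex.measurableEquivRealProd z))
      (volume : Measure ℂ) :=
  (Complex.volume_preserving_equiv_real_prod.integrable_comp_emb
    Complex.measurableEquivRealProd.measurableEmbedding).2 integrable_domFun

lemma le_domFun {z : ℂ} (hz : z ∈ ((↑) '' ModularGroup.fd : Set ℂ)) :
    (((1 / ‖z.im‖₊) ^ 2 : NNReal) : ENNReal)
      ≤ ENNReal.ofReal (domFun (Complex.measurableEquivRealProd z)) := by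
  obtain ⟨τ, hτ, rfl⟩ := hz
  have h3 := ModularGroup.three_le_four_mul_im_sq_of_mem_fd hτ
  have him : (0 : ℝ) < τ.im := τ.im_pos
  have him' : (1 / 4 : ℝ) < τ.im := by nlinarith
  have hre : τ.re ∈ Icc (-(1 / 2 : ℝ)) (1 / 2) := abs_le.1 hτ.2
  have e1 : domFun (Complex.measurableEquivRealProd (τ : ℂ)) = τ.im ^ (-2 : ℝ) := by
    simp only [domFun, Complex.measurableEquivRealProd_apply, UpperHalfPlane.coe_re,
      UpperHalfPlane.coe_im]
    rw [indicator_of_mem hre, indicator_of_mem (mem_Ioi.2 him'), one_mul]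
  rw [e1]
  have e2 : (((1 / ‖(τ : ℂ).im‖₊) ^ 2 : NNReal) : ENNReal) = ENNReal.ofReal (τ.im ^ (-2 : ℝ)) := by
    rw [ENNReal.ofReal, ENNReal.coe_inj]
    apply NNReal.coe_injective
    rw [Real.coe_toNNReal _ (Real.rpow_nonneg him.le _)]
    simp only [UpperHalfPlane.coe_im, one_div, NNReal.coe_pow, NNReal.coe_inv, coe_nnnorm,
      Real.norm_eq_abs, abs_of_pos him]
    rw [Real.rpow_neg him.le, inv_pow, Real.rpow_two]
  rw [e2]

/-- **PET-M1a.** -/
theorem fdFinite : Fermat.Agent.H98.Pet.FdFiniteStatement := by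
  unfold Fermat.Agent.H98.Pet.FdFiniteStatement
  rw [UpperHalfPlane.volume_eq_lintegral]
  have hmeas : MeasurableSet ((↑) '' ModularGroup.fd : Set ℂ) :=
    ModularGroup.isClosed_coe_fd.measurableSet
  have h1 : ∫⁻ z : ℂ in (↑) '' ModularGroup.fd, (((1 / ‖z.im‖₊) ^ 2 : NNReal) : ENNReal)
      ≤ ∫⁻ z : ℂ in (↑) '' ModularGroup.fd,
          ENNReal.ofReal (domFun (Complex.measurableEquivRealProd z)) :=
    setLIntegral_mono' hmeas (fun z hz => le_domFun hz)
  have h2 : ∫⁻ z : ℂ in (↑) '' ModularGroup.fd,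
          ENNReal.ofReal (domFun (Complex.measurableEquivRealProd z))
      ≤ ∫⁻ z : ℂ, ENNReal.ofReal (domFun (Complex.measurableEquivRealProd z)) :=
    setLIntegral_le_lintegral _ _
  have h3 : ∫⁻ z : ℂ, ENNReal.ofReal (domFun (Complex.measurableEquivRealProd z)) < ⊤ :=
    integrable_domFun_comp.lintegral_lt_top
  exact ((h1.trans h2).trans_lt h3).ne

end Fermat.Agent.H33.Pet
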